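import Mathlib

/-!
# Local rings of smooth algebras of relative dimension one over an algebraically closed field

A formally smooth noetherian local algebra with trivial residue extension and free module of
differentials of rank one is a discrete valuation ring.
-/

set_option autoImplicit false

universe u

open IsLocalRing KaehlerDifferential Polynomial
open scoped TensorProduct

namespace Fermat.Agent.Jac.W1

variable {L : Type u} [Field L] {R : Type u} [CommRing R] [Algebra L R] [IsLocalRing R]

/-- Every element is a constant plus an element of the maximal ideal. -/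
def RationalPoint (L R : Type u) [Field L] [CommRing R] [Algebra L R] [IsLocalRing R] : Prop :=
  ∀ r : R, ∃ c : L, r - algebraMap L R c ∈ maximalIdeal R

theorem RationalPoint.unique (r : R) {c d : L} (hc : r - algebraMap L R c ∈ maximalIdeal R)
    (hd : r - algebraMap L R d ∈ maximalIdeal R) : c = d := by
  by_contra hne
  have h : algebraMap L R (c - d) ∈ maximalIdeal R := by
    have := (maximalIdeal R).sub_mem hd hc
    simpa [map_sub] using this
  exact h ((sub_ne_zero.mpr hne).isUnit.map _)

/-- The constant part of an element. -/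
noncomputable def RationalPoint.value (h : RationalPoint L R) (r : R) : L := (h r).choose

theorem RationalPoint.sub_value_mem (h : RationalPoint L R) (r : R) :
    r - algebraMap L R (h.value r) ∈ maximalIdeal R := (h r).choose_spec

theorem RationalPoint.value_eq (h : RationalPoint L R) {r : R} {c : L}
    (hc : r - algebraMap L R c ∈ maximalIdeal R) : h.value r = c :=
  RationalPoint.unique r (h r).choose_spec hc

variable [IsNoetherianRing R] in
/-- The maximal ideal is principal if the differentials are cyclic. -/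
theorem exists_maximalIdeal_eq_span (h : RationalPoint L R) (ω : Ω[R⁄L])
    (hω : Submodule.span R {ω} = ⊤) : ∃ ϖ, maximalIdeal R = Ideal.span {ϖ} := by
  set m := maximalIdeal R
  let mk : R →ₗ[R] R ⧸ m ^ 2 := (m ^ 2).mkQ
  have hadd : ∀ r s, h.value (r + s) = h.value r + h.value s := fun r s => h.value_eq (by
    have := m.add_mem (h.sub_value_mem r) (h.sub_value_mem s)
    convert this using 1
    simp [map_add]; ring)
  have hsmul : ∀ (c : L) (r : R), h.value (c • r) = c * h.value r := fun c r => h.value_eq (by
    have := m.mul_mem_left (algebraMap L R c) (h.sub_value_mem r)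
    convert this using 1
    simp [Algebra.smul_def]; ring)
  let φ : R →ₗ[L] R ⧸ m ^ 2 :=
    { toFun := fun r => mk (r - algebraMap L R (h.value r))
      map_add' := fun r s => by rw [hadd, ← map_add]; congr 1; simp; ring
      map_smul' := fun c r => by
        rw [RingHom.id_apply, hsmul, ← LinearMap.map_smul_of_tower]
        congr 1
        simp [Algebra.smul_def]; ring }
  have hφ : ∀ r s, φ (r * s) = r • φ s + s • φ r := by
    intro r s
    have hmul : h.value (r * s) = h.value r * h.value s := h.value_eq (by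
      have := m.add_mem (m.mul_mem_left r (h.sub_value_mem s))
        (m.mul_mem_left (algebraMap L R (h.value s)) (h.sub_value_mem r))
      convert this using 1
      simp; ring)
    change mk _ = r • mk _ + s • mk _
    rw [hmul, ← map_smul, ← map_smul, ← map_add, ← sub_eq_zero, ← map_sub]
    refine (Submodule.Quotient.mk_eq_zero _).mpr ?_
    have := (m ^ 2).neg_mem (sq m ▸ Ideal.mul_mem_mul (h.sub_value_mem r) (h.sub_value_mem s))
    convert this using 1
    simp; ring
  let der : Derivation L R (R ⧸ m ^ 2) := Derivation.mk' φ hφ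
  obtain ⟨ϖ, hϖ⟩ := Submodule.mkQ_surjective (m ^ 2) (der.liftKaehlerDifferential ω)
  have hϖm : ϖ ∈ m := by
    have hle : LinearMap.range der.liftKaehlerDifferential ≤ Submodule.map mk m := by
      rw [LinearMap.range_eq_map, ← KaehlerDifferential.span_range_derivation, Submodule.map_span,
        Submodule.span_le]
      rintro _ ⟨_, ⟨r, rfl⟩, rfl⟩
      rw [Derivation.liftKaehlerDifferential_comp_D]
      exact ⟨_, h.sub_value_mem r, rfl⟩
    obtain ⟨y, hy, hyϖ⟩ := hle ⟨ω, hϖ.symm⟩
    have := (Submodule.Quotient.eq _).mp hyϖ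
    simpa using m.sub_mem hy (Ideal.pow_le_self two_ne_zero this)
  refine ⟨ϖ, le_antisymm ?_ ((Ideal.span_singleton_le_iff_mem _).mpr hϖm)⟩
  refine Submodule.le_of_le_smul_of_le_jacobson_bot (IsNoetherian.noetherian m)
    (jacobson_eq_maximalIdeal (⊥ : Ideal R) bot_ne_top).ge ?_
  intro y hy
  obtain ⟨a, ha⟩ := Submodule.mem_span_singleton.mp
    (hω ▸ Submodule.mem_top : KaehlerDifferential.D L R y ∈ Submodule.span R {ω})
  have hv : h.value y = 0 := h.value_eq (by rw [map_zero, sub_zero]; exact hy)
  have hy2 : mk y = mk (a • ϖ) := by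
    have h1 : der y = mk y := by
      change mk (y - algebraMap L R (h.value y)) = mk y
      simp [hv]
    rw [← h1, ← Derivation.liftKaehlerDifferential_comp_D der y, ← ha, map_smul, map_smul, hϖ]
  have hd := (Submodule.Quotient.eq _).mp hy2
  rw [Submodule.mem_sup]
  exact ⟨a • ϖ, Ideal.mem_span_singleton'.mpr ⟨a, rfl⟩, y - a • ϖ,
    (by rwa [smul_eq_mul, ← sq]), by simp⟩

/-- Every element is a polynomial in a generator of the maximal ideal, if that is nilpotent. -/
theorem exists_aeval_eq (h : RationalPoint L R) {ϖ : R} (hϖ : maximalIdeal R = Ideal.span {ϖ})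
    (j : ℕ) (r : R) : ∃ (p : L[X]) (r' : R), r = aeval ϖ p + ϖ ^ j * r' := by
  induction j with
  | zero => exact ⟨0, r, by simp⟩
  | succ j ih =>
    obtain ⟨p, r', hr⟩ := ih
    have hm := h.sub_value_mem r'
    rw [hϖ, Ideal.mem_span_singleton'] at hm
    obtain ⟨b, hb⟩ := hm
    refine ⟨p + C (h.value r') * X ^ j, b, ?_⟩
    simp only [map_add, map_mul, aeval_C, map_pow, aeval_X]
    linear_combination hr - (ϖ ^ j) * hb

/-- A formally smooth algebra with rational residue field is not a truncated polynomial ring. -/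
theorem not_isNilpotent_of_formallySmooth [Algebra.FormallySmooth L R] (h : RationalPoint L R)
    {ϖ : R} (hϖ : maximalIdeal R = Ideal.span {ϖ}) (hΩ : Nontrivial Ω[R⁄L]) :
    ¬ IsNilpotent ϖ := by
  intro hnil
  classical
  set n := Nat.find hnil with hn
  have hpow : ϖ ^ n = 0 := Nat.find_spec hnil
  have hlt : ∀ i < n, ϖ ^ i ≠ 0 := fun i hi => Nat.find_min hnil hi
  have hn0 : n ≠ 0 := by
    intro h0
    simp [h0] at hpow
  have hsurj : Function.Surjective (aeval ϖ : L[X] →ₐ[L] R) := fun r => by
    obtain ⟨p, r', hr⟩ := exists_aeval_eq h hϖ n r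
    exact ⟨p, by rw [hr, hpow, zero_mul, add_zero]⟩
  have hn1 : n ≠ 1 := by
    intro h1
    rw [h1, pow_one] at hpow
    have hs : Function.Surjective (algebraMap L R) := fun r => by
      obtain ⟨p, rfl⟩ := hsurj r
      exact ⟨p.eval 0, by rw [hpow]; simp [← aeval_algebraMap_apply_eq_algebraMap_eval]⟩
    have := KaehlerDifferential.subsingleton_of_surjective L R hs
    exact not_subsingleton Ω[R⁄L] this
  have hker : ∀ p : L[X], aeval ϖ p = 0 → X ^ n ∣ p := by
    intro p hp
    rcases eq_or_ne p 0 with rfl | hp0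
    · exact dvd_zero _
    obtain ⟨q, hq, hq0⟩ := Polynomial.exists_eq_pow_rootMultiplicity_mul_and_not_dvd p hp0 0
    simp only [map_zero, sub_zero] at hq hq0
    set i := p.rootMultiplicity 0
    rw [X_dvd_iff, coeff_zero_eq_eval_zero] at hq0
    have hu : IsUnit (aeval ϖ q) := by
      by_contra hnu
      have h1 : aeval ϖ q ∈ maximalIdeal R := (mem_maximalIdeal _).mpr hnu
      have h2 : aeval ϖ q - algebraMap L R (q.eval 0) ∈ maximalIdeal R := by
        obtain ⟨s, hs⟩ := X_dvd_iff.mpr (show (q - C (q.eval 0)).coeff 0 = 0 by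
          simp [coeff_zero_eq_eval_zero])
        rw [hϖ, Ideal.mem_span_singleton]
        refine ⟨aeval ϖ s, ?_⟩
        simpa using congrArg (aeval ϖ) hs
      have h3 := (maximalIdeal R).sub_mem h1 h2
      rw [sub_sub_cancel] at h3
      exact (mem_maximalIdeal _).mp h3 ((isUnit_iff_ne_zero.mpr hq0).map (algebraMap L R))
    have hi : ϖ ^ i = 0 := by
      rw [hq, map_mul, map_pow, aeval_X] at hp
      exact (hu.mul_left_eq_zero).mp hp
    have hni : n ≤ i := by
      by_contra hlt'
      exact hlt i (not_le.mp hlt') hi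
    rw [hq]
    exact dvd_mul_of_dvd_left (pow_dvd_pow _ hni) _
  let I : Ideal L[X] := Ideal.span {X ^ (n + 1)}
  let g : (L[X] ⧸ I) →ₐ[L] R := Ideal.Quotient.liftₐ I (aeval ϖ) (by
    intro p hp
    obtain ⟨s, rfl⟩ := Ideal.mem_span_singleton.mp hp
    simp [pow_succ, hpow])
  have hg : Function.Surjective g := fun r => by
    obtain ⟨p, rfl⟩ := hsurj r
    exact ⟨Ideal.Quotient.mk I p, rfl⟩
  have hgker : ∀ x, g x = 0 → x ∈ Ideal.span {Ideal.Quotient.mk I (X ^ n)} := by
    intro x hx
    obtain ⟨p, rfl⟩ := Ideal.Quotient.mk_surjective x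
    obtain ⟨s, rfl⟩ := hker p hx
    exact Ideal.mem_span_singleton.mpr ⟨Ideal.Quotient.mk I s, by simp⟩
  have hnilg : IsNilpotent (RingHom.ker (g : (L[X] ⧸ I) →+* R)) := by
    refine ⟨2, ?_⟩
    rw [Submodule.zero_eq_bot, eq_bot_iff, Submodule.pow_succ, Submodule.pow_one, Ideal.mul_le]
    intro x hx y hy
    obtain ⟨a, rfl⟩ := Ideal.mem_span_singleton.mp (hgker x hx)
    obtain ⟨b, rfl⟩ := Ideal.mem_span_singleton.mp (hgker y hy)
    obtain ⟨a, rfl⟩ := Ideal.Quotient.mk_surjective a
    obtain ⟨b, rfl⟩ := Ideal.Quotient.mk_surjective b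
    rw [Submodule.mem_bot, ← map_mul, ← map_mul, ← map_mul, Ideal.Quotient.eq_zero_iff_mem,
      Ideal.mem_span_singleton]
    exact dvd_trans (pow_dvd_pow X (by omega : n + 1 ≤ n + n))
      ⟨a * b, by ring⟩
  let σ := Algebra.FormallySmooth.liftOfSurjective (AlgHom.id L R) g hg hnilg
  have hσ : ∀ x, g (σ x) = x := fun x =>
    Algebra.FormallySmooth.liftOfSurjective_apply _ _ hg hnilg x
  obtain ⟨p, hp⟩ := Ideal.Quotient.mk_surjective (σ ϖ)
  obtain ⟨a, ha⟩ := hker (p - X) (by
    have : aeval ϖ p = ϖ := by
      have := hσ ϖ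
      rwa [← hp] at this
    simp [this])
  have hz : Ideal.Quotient.mk I (p ^ n) = 0 := by rw [map_pow, hp, ← map_pow, hpow, map_zero]
  rw [Ideal.Quotient.eq_zero_iff_mem, Ideal.mem_span_singleton] at hz
  obtain ⟨m, hm⟩ : ∃ m, n = m + 2 := ⟨n - 2, by omega⟩
  have hpe : p ^ n = X ^ n * (1 + X ^ (m + 1) * a) ^ n := by
    rw [← mul_pow, sub_eq_iff_eq_add.mp ha, hm]
    ring
  rw [hpe, pow_succ, mul_dvd_mul_iff_left (pow_ne_zero _ X_ne_zero), X_dvd_iff,
    coeff_zero_eq_eval_zero] at hz
  simp at hz

/-- A local algebra as in the title is a domain and a discrete valuation ring. -/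
theorem isDVR_of_formallySmooth [IsNoetherianRing R] [Algebra.FormallySmooth L R]
    (h : RationalPoint L R)
    (ω : Ω[R⁄L]) (hω : Submodule.span R {ω} = ⊤) (hΩ : Nontrivial Ω[R⁄L]) :
    ∃ _ : IsDomain R, IsDiscreteValuationRing R := by
  classical
  obtain ⟨ϖ, hϖ⟩ := exists_maximalIdeal_eq_span h ω hω
  have hnil := not_isNilpotent_of_formallySmooth h hϖ hΩ
  have hfac : ∀ x : R, x ≠ 0 → ∃ n, ∃ v : Rˣ, x = ϖ ^ n * v := by
    intro x hx
    have hex : ∃ n, x ∉ maximalIdeal R ^ n := by
      by_contra hall
      refine hx ?_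
      have : x ∈ ⨅ n, maximalIdeal R ^ n :=
        Ideal.mem_iInf.mpr fun n => by_contra fun hc => hall ⟨n, hc⟩
      rwa [Ideal.iInf_pow_eq_bot_of_isLocalRing _ (maximalIdeal.isMaximal R).ne_top,
        Submodule.mem_bot] at this
    obtain ⟨n, hn⟩ : ∃ n, Nat.find hex = n + 1 := by
      refine ⟨Nat.find hex - 1, (Nat.sub_add_cancel (Nat.one_le_iff_ne_zero.mpr ?_)).symm⟩
      intro h0
      have := Nat.find_spec hex
      simp [h0] at this
    have hmem : x ∈ maximalIdeal R ^ n := not_not.mp (Nat.find_min hex (by omega))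
    have hnot : x ∉ maximalIdeal R ^ (n + 1) := hn ▸ Nat.find_spec hex
    rw [hϖ, Ideal.span_singleton_pow, Ideal.mem_span_singleton] at hmem hnot
    obtain ⟨v, rfl⟩ := hmem
    have hv : IsUnit v := by
      by_contra hnu
      have : v ∈ maximalIdeal R := (mem_maximalIdeal _).mpr hnu
      rw [hϖ, Ideal.mem_span_singleton] at this
      exact hnot (pow_succ ϖ n ▸ mul_dvd_mul_left _ this)
    exact ⟨n, hv.unit, by rw [hv.unit_spec]⟩
  have : NoZeroDivisors R := ⟨fun {x y} hxy => by
    by_contra hne
    push Not at hne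
    obtain ⟨n, v, rfl⟩ := hfac x hne.1
    obtain ⟨n', v', rfl⟩ := hfac y hne.2
    refine hnil ⟨n + n', ?_⟩
    have hz : ϖ ^ (n + n') * ↑(v * v') = 0 := by
      rw [pow_add, Units.val_mul]
      linear_combination hxy
    exact (v * v').mul_left_eq_zero.mp hz⟩
  have : IsDomain R := NoZeroDivisors.to_isDomain R
  refine ⟨inferInstance, ?_⟩
  have hne : ϖ ≠ 0 := fun h0 => hnil ⟨1, by simp [h0]⟩
  have hnf : ¬ IsField R := fun hf => hne (by
    have := hϖ ▸ Ideal.mem_span_singleton_self ϖ
    rwa [(isField_iff_maximalIdeal_eq.mp hf), Submodule.mem_bot] at this)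
  exact ((IsDiscreteValuationRing.TFAE R hnf).out 4 0).mp
    (show (maximalIdeal R).IsPrincipal from ⟨⟨ϖ, hϖ⟩⟩)

section Global

variable {L : Type u} [Field L] [IsAlgClosed L] {A : Type u} [CommRing A] [Algebra L A]

theorem rationalPoint_atPrime [Algebra.FiniteType L A] (q : Ideal A) [q.IsMaximal] :
    RationalPoint L (Localization.AtPrime q) := by
  let := Ideal.Quotient.field q
  have : Module.Finite L (A ⧸ q) := finite_of_finite_type_of_isJacobsonRing L (A ⧸ q)
  have hbij : Function.Bijective (algebraMap L (A ⧸ q)) :=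
    IsAlgClosed.algebraMap_bijective_of_isIntegral
  intro r
  obtain ⟨⟨a, s⟩, hr⟩ := IsLocalization.surj q.primeCompl r
  obtain ⟨ca, hca⟩ := hbij.2 (Ideal.Quotient.mk q a)
  obtain ⟨cs, hcs⟩ := hbij.2 (Ideal.Quotient.mk q (s : A))
  have hmem : ∀ x : A, x ∈ q →
      algebraMap A (Localization.AtPrime q) x ∈ IsLocalRing.maximalIdeal _ := fun x hx =>
    (IsLocalization.AtPrime.to_map_mem_maximal_iff _ q x).mpr hx
  have hs : cs ≠ 0 := fun h0 =>
    s.2 (Ideal.Quotient.eq_zero_iff_mem.mp (by rw [← hcs, h0, map_zero]))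
  refine ⟨ca / cs, ?_⟩
  have hu : IsUnit (algebraMap A (Localization.AtPrime q) (s : A)) :=
    IsLocalization.map_units _ s
  have hx : a - algebraMap L A (ca / cs) * (s : A) ∈ q := by
    refine Ideal.Quotient.eq_zero_iff_mem.mp ?_
    rw [map_sub, map_mul, Ideal.Quotient.mk_algebraMap, ← hca, ← hcs, ← map_mul,
      div_mul_cancel₀ _ hs, sub_self]
  refine (Ideal.mul_unit_mem_iff_mem _ hu).mp ?_
  rw [sub_mul, hr, IsScalarTower.algebraMap_apply L A (Localization.AtPrime q), ← map_mul,
    ← map_sub]
  exact hmem _ hx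

/-- The local rings at maximal ideals of a smooth algebra of relative dimension one. -/
theorem isDVR_atPrime [Algebra.FiniteType L A]
    (H : RingHom.Locally (RingHom.IsStandardSmoothOfRelativeDimension 1) (algebraMap L A))
    (q : Ideal A) [q.IsMaximal] :
    ∃ _ : IsDomain (Localization.AtPrime q),
      IsDiscreteValuationRing (Localization.AtPrime q) := by
  have : IsNoetherianRing A := Algebra.FiniteType.isNoetherianRing L A
  have : IsNoetherianRing (Localization.AtPrime q) :=
    IsLocalization.isNoetherianRing q.primeCompl _ inferInstance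
  obtain ⟨S, hS, hSP⟩ := H
  obtain ⟨g, hgS, hgq⟩ : ∃ g ∈ S, g ∉ q := by
    by_contra hall
    push Not at hall
    exact ‹q.IsMaximal›.ne_top (top_le_iff.mp (hS ▸ Ideal.span_le.mpr hall))
  have hst : Algebra.IsStandardSmoothOfRelativeDimension 1 L (Localization.Away g) := by
    have h1 := hSP g hgS
    rw [← IsScalarTower.algebraMap_eq] at h1
    exact (RingHom.isStandardSmoothOfRelativeDimension_algebraMap 1).mp h1
  let φ : Localization.Away g →ₐ[A] Localization.AtPrime q :=
    IsLocalization.liftAlgHom (M := Submonoid.powers g) (f := Algebra.ofId A _) (by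
      rintro ⟨_, i, rfl⟩
      exact IsLocalization.map_units (M := q.primeCompl) _ ⟨g ^ i, fun h =>
        hgq (Ideal.IsPrime.mem_of_pow_mem inferInstance i h)⟩)
  algebraize [φ.toRingHom]
  have : IsScalarTower A (Localization.Away g) (Localization.AtPrime q) :=
    .of_algebraMap_eq fun x => (φ.commutes x).symm
  have : IsScalarTower L (Localization.Away g) (Localization.AtPrime q) := .to₁₃₄ L A _ _
  have : IsLocalization (Algebra.algebraMapSubmonoid (Localization.Away g) q.primeCompl)
      (Localization.AtPrime q) :=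
    IsLocalization.isLocalization_of_submonoid_le _ _ (Submonoid.powers g) _ (by
      rintro _ ⟨i, rfl⟩
      exact fun h => hgq (Ideal.IsPrime.mem_of_pow_mem inferInstance i h))
  have : Algebra.FormallyEtale (Localization.Away g) (Localization.AtPrime q) :=
    Algebra.FormallyEtale.of_isLocalization
      (Algebra.algebraMapSubmonoid (Localization.Away g) q.primeCompl)
  have := Algebra.IsStandardSmoothOfRelativeDimension.isStandardSmooth (R := L)
    (S := Localization.Away g) 1
  have : Algebra.FormallySmooth L (Localization.AtPrime q) :=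
    Algebra.FormallySmooth.comp L (Localization.Away g) _
  have : Nontrivial (Localization.Away g) := φ.toRingHom.domain_nontrivial
  have hrank := Algebra.IsStandardSmoothOfRelativeDimension.rank_kaehlerDifferential (R := L)
    (S := Localization.Away g) 1
  obtain ⟨e⟩ : Nonempty (Ω[Localization.Away g⁄L] ≃ₗ[Localization.Away g] Localization.Away g) :=
    nonempty_linearEquiv_of_rank_eq (by rw [hrank, Module.rank_self, Nat.cast_one])
  let E : Ω[Localization.AtPrime q⁄L] ≃ₗ[Localization.AtPrime q] Localization.AtPrime q :=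
    (KaehlerDifferential.tensorKaehlerEquivOfFormallyEtale L (Localization.Away g)
      (Localization.AtPrime q)).symm ≪≫ₗ
      TensorProduct.AlgebraTensorModule.congr (LinearEquiv.refl _ _) e ≪≫ₗ
      TensorProduct.AlgebraTensorModule.rid (Localization.Away g) _ _
  refine isDVR_of_formallySmooth (rationalPoint_atPrime q) (E.symm 1) ?_ E.toEquiv.nontrivial
  rw [eq_top_iff]
  intro x _
  exact Submodule.mem_span_singleton.mpr ⟨E x, by rw [← map_smul, smul_eq_mul, mul_one,
    E.symm_apply_apply]⟩

/-- A smooth domain of relative dimension one over an algebraically closed field is Dedekind. -/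
theorem isDedekindDomain_of_smooth [IsDomain A] [Algebra.FiniteType L A]
    (H : RingHom.Locally (RingHom.IsStandardSmoothOfRelativeDimension 1) (algebraMap L A)) :
    IsDedekindDomain A := by
  have : IsNoetherianRing A := Algebra.FiniteType.isNoetherianRing L A
  have : IsDedekindDomainDvr A :=
    { is_dvr_at_nonzero_prime := fun P hP hPp => by
        obtain ⟨q, hq, hPq⟩ := Ideal.exists_le_maximal P hPp.ne_top
        have := hq
        obtain ⟨_, hd⟩ := isDVR_atPrime H q
        obtain rfl : P = q := by
          set R := Localization.AtPrime q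
          have hd' : Disjoint (q.primeCompl : Set A) (P : Set A) :=
            Set.disjoint_left.mpr fun x hx hxP => hx (hPq hxP)
          have hc : (P.map (algebraMap A R)).comap (algebraMap A R) = P :=
            IsLocalization.under_map_of_isPrime_disjoint q.primeCompl R hPp hd'
          have hpr : (P.map (algebraMap A R)).IsPrime :=
            IsLocalization.isPrime_of_isPrime_disjoint q.primeCompl R P hPp hd'
          have hne : P.map (algebraMap A R) ≠ ⊥ := fun h0 => hP (by
            rw [← hc, h0, ← RingHom.ker_eq_comap_bot,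
              (RingHom.injective_iff_ker_eq_bot _).mp
                (IsLocalization.injective R q.primeCompl_le_nonZeroDivisors)])
          rw [← hc, IsLocalRing.eq_maximalIdeal (hpr.isMaximal hne)]
          exact IsLocalization.AtPrime.under_maximalIdeal R q
        exact hd }
  infer_instance

/-- Such an algebra is not a field. -/
theorem not_isField_of_smooth [IsDomain A] [Algebra.FiniteType L A]
    (H : RingHom.Locally (RingHom.IsStandardSmoothOfRelativeDimension 1) (algebraMap L A)) :
    ¬ IsField A := by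
  intro hf
  obtain ⟨q, hq⟩ := Ideal.exists_maximal A
  have := hq
  obtain ⟨_, hd⟩ := isDVR_atPrime H q
  have hq0 : q = ⊥ := by
    let := hf.toField
    exact (Ideal.eq_bot_or_top q).resolve_right hq.ne_top
  refine IsDiscreteValuationRing.not_a_field (Localization.AtPrime q) ?_
  rw [← Localization.AtPrime.map_eq_maximalIdeal, Ideal.map_eq_bot_iff_le_ker]
  intro x hx
  have hx0 : x = 0 := by simpa [hq0] using hx
  simp [hx0]

end Global

end Fermat.Agent.Jac.W1
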