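import Mathlib
import Fermat.Agent.Jac.W1.SmoothCurveAlg

/-!
# Points and affine open subsets of a smooth proper curve

Closed points have discrete valuation rings and proper closed subsets are finite.
-/

set_option autoImplicit false

universe u

open CategoryTheory AlgebraicGeometry TopologicalSpace

namespace Fermat.Agent.Jac.W1

variable {k : Type u} [Field k] {C : Scheme.{u}} (c : C ⟶ Spec (CommRingCat.of k))

theorem le_preimage_top (V : C.Opens) : V ≤ c ⁻¹ᵁ ⊤ := by simp

/-- The structure map on an open subset. -/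
noncomputable def kHom (V : C.Opens) : k →+* Γ(C, V) :=
  ((Scheme.ΓSpecIso (CommRingCat.of k)).inv ≫ c.appLE ⊤ V (le_preimage_top c V)).hom

theorem kHom_res {V V' : C.Opens} (h : V' ≤ V) (a : k) :
    C.presheaf.map (homOfLE h).op (kHom c V a) = kHom c V' a := by
  simp only [kHom, CommRingCat.hom_comp, RingHom.comp_apply]
  rw [← ConcreteCategory.comp_apply, Scheme.Hom.appLE_map]

theorem locally_kHom [SmoothOfRelativeDimension 1 c] {V : C.Opens} (hV : IsAffineOpen V) :
    RingHom.Locally (RingHom.IsStandardSmoothOfRelativeDimension 1) (kHom c V) := by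
  have h := HasRingHomProperty.appLE (P := @SmoothOfRelativeDimension 1) c ‹_›
    ⟨⊤, isAffineOpen_top _⟩ ⟨V, hV⟩ (by simp)
  rw [kHom, CommRingCat.hom_comp]
  exact (RingHom.locally_respectsIso
    RingHom.isStandardSmoothOfRelativeDimension_respectsIso).right _
      (Scheme.ΓSpecIso (CommRingCat.of k)).symm.commRingCatIsoToRingEquiv h

theorem finiteType_kHom [LocallyOfFiniteType c] {V : C.Opens} (hV : IsAffineOpen V) :
    (kHom c V).FiniteType := by
  rw [kHom, CommRingCat.hom_comp]
  exact (c.finiteType_appLE (isAffineOpen_top _) hV (by simp)).comp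
    (RingHom.FiniteType.of_surjective _
      (Scheme.ΓSpecIso (CommRingCat.of k)).symm.commRingCatIsoToRingEquiv.surjective)

theorem exists_affine_mem (x : C) : ∃ V : C.Opens, IsAffineOpen V ∧ x ∈ V := by
  obtain ⟨_, ⟨V, hV, rfl⟩, hxV, -⟩ :=
    C.isBasis_affineOpens.exists_subset_of_mem_open (Set.mem_univ x) isOpen_univ
  exact ⟨V, hV, hxV⟩

theorem nonempty_opens {x : C} {V : C.Opens} (hx : x ∈ V) : Nonempty V := ⟨⟨x, hx⟩⟩

variable [IsAlgClosed k] [SmoothOfRelativeDimension 1 c] [IsIntegral C]

include c in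
theorem isDedekindDomain_section {V : C.Opens} (hV : IsAffineOpen V) [Nonempty V] :
    IsDedekindDomain Γ(C, V) ∧ ¬ IsField Γ(C, V) := by
  have : Smooth c := SmoothOfRelativeDimension.smooth 1 c
  let : Algebra k Γ(C, V) := (kHom c V).toAlgebra
  have : Algebra.FiniteType k Γ(C, V) := finiteType_kHom c hV
  exact ⟨isDedekindDomain_of_smooth (locally_kHom c hV),
    not_isField_of_smooth (locally_kHom c hV)⟩

include c in
theorem genericPoint_not_isClosed : ¬ IsClosed ({genericPoint C} : Set C) := by
  intro hcl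
  have huniv : ({genericPoint C} : Set C) = Set.univ := by
    rw [← hcl.closure_eq]; exact genericPoint_spec C
  obtain ⟨V, hV, hxV⟩ := exists_affine_mem (genericPoint C)
  have := nonempty_opens hxV
  refine (isDedekindDomain_section c hV).2 ?_
  have : Subsingleton (PrimeSpectrum Γ(C, V)) := ⟨fun p q =>
    hV.fromSpec.isOpenEmbedding.injective (by
    have hp : hV.fromSpec p = genericPoint C := huniv.ge (Set.mem_univ _)
    have hq : hV.fromSpec q = genericPoint C := huniv.ge (Set.mem_univ _)
    exact hp.trans hq.symm)⟩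
  by_contra hnf
  obtain ⟨P, hP, hPm⟩ := Ring.not_isField_iff_exists_prime.mp hnf
  exact hP (congrArg PrimeSpectrum.asIdeal
    (Subsingleton.elim (⟨P, hPm⟩ : PrimeSpectrum Γ(C, V)) ⟨⊥, Ideal.isPrime_bot⟩))

include c in
theorem isClosed_singleton {x : C} (hx : x ≠ genericPoint C) : IsClosed ({x} : Set C) := by
  have : Smooth c := SmoothOfRelativeDimension.smooth 1 c
  have : JacobsonSpace C := LocallyOfFiniteType.jacobsonSpace c
  obtain ⟨V, hV, hxV⟩ := exists_affine_mem x
  have := nonempty_opens hxV
  have := (isDedekindDomain_section c hV).1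
  have hne : (hV.primeIdealOf ⟨x, hxV⟩).asIdeal ≠ ⊥ := by
    intro h0
    refine hx ?_
    have h1 : hV.primeIdealOf ⟨x, hxV⟩ = genericPoint (Spec Γ(C, V)) := by
      rw [genericPoint_eq_bot_of_affine]; exact PrimeSpectrum.ext h0
    have := congrArg hV.fromSpec h1
    rwa [hV.fromSpec_primeIdealOf, genericPoint_eq_of_isOpenImmersion] at this
  have hmax : (hV.primeIdealOf ⟨x, hxV⟩).asIdeal.IsMaximal :=
    (hV.primeIdealOf ⟨x, hxV⟩).isPrime.isMaximal hne
  refine isClosed_singleton_of_isLocallyClosed_singleton ?_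
  have hxeq : hV.fromSpec (hV.primeIdealOf ⟨x, hxV⟩) = x := hV.fromSpec_primeIdealOf ⟨x, hxV⟩
  rw [← hxeq]
  have h := (((PrimeSpectrum.isClosed_singleton_iff_isMaximal _).mpr hmax).isLocallyClosed).image
    hV.fromSpec.isOpenEmbedding.isInducing hV.fromSpec.isOpenEmbedding.isOpen_range.isLocallyClosed
  erw [Set.image_singleton] at h
  exact h

include c in
/-- The local ring at a closed point is a discrete valuation ring. -/
theorem isDVR_stalk {x : C} (hx : IsClosed ({x} : Set C)) :
    IsDiscreteValuationRing (C.presheaf.stalk x) := by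
  have hxne : x ≠ genericPoint C := fun h => genericPoint_not_isClosed c (h ▸ hx)
  obtain ⟨V, hV, hxV⟩ := exists_affine_mem x
  have := nonempty_opens hxV
  have := (isDedekindDomain_section c hV).1
  have hne : (hV.primeIdealOf ⟨x, hxV⟩).asIdeal ≠ ⊥ := by
    intro h0
    refine hxne ?_
    have h1 : hV.primeIdealOf ⟨x, hxV⟩ = genericPoint (Spec Γ(C, V)) := by
      rw [genericPoint_eq_bot_of_affine]; exact PrimeSpectrum.ext h0
    have := congrArg hV.fromSpec h1
    rwa [hV.fromSpec_primeIdealOf, genericPoint_eq_of_isOpenImmersion] at this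
  let := TopCat.Presheaf.algebra_section_stalk C.presheaf (⟨x, hxV⟩ : V)
  have : IsLocalization.AtPrime (C.presheaf.stalk x) (hV.primeIdealOf ⟨x, hxV⟩).asIdeal :=
    hV.isLocalization_stalk ⟨x, hxV⟩
  exact IsLocalization.AtPrime.isDiscreteValuationRing_of_dedekind_domain Γ(C, V) hne
    (C.presheaf.stalk x)

include c in
/-- A closed set missing the generic point is finite. -/
theorem finite_of_isClosed [IsProper c] {Z : Set C} (hZ : IsClosed Z) (hη : genericPoint C ∉ Z) :
    Z.Finite := by
  have : IsLocallyNoetherian C := LocallyOfFiniteType.isLocallyNoetherian c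
  have : CompactSpace C := QuasiCompact.compactSpace_of_compactSpace c
  have : IsNoetherian C := {}
  obtain ⟨S, hSfin, hScl, hSirr, hSU⟩ := NoetherianSpace.exists_finite_set_isClosed_irreducible hZ
  rw [hSU]
  refine hSfin.sUnion fun W hW => ?_
  obtain ⟨w, hw⟩ := QuasiSober.sober (hSirr W hW) (hScl W hW)
  have hwW : w ∈ W := hw.mem
  have hwne : w ≠ genericPoint C := fun h => hη (by
    rw [hSU]; exact ⟨W, hW, h ▸ hwW⟩)
  have hWw : W = {w} := by rw [← hw, (isClosed_singleton c hwne).closure_eq]
  rw [hWw]; exact Set.finite_singleton _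

end Fermat.Agent.Jac.W1
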