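import Mathlib
import Fermat.Agent.Jac.W1.Points

/-!
# The open set where a rational function is regular, as a finite cover of the affine line
-/

set_option autoImplicit false

universe u

open CategoryTheory CategoryTheory.Limits AlgebraicGeometry TopologicalSpace Opposite Polynomial

namespace Fermat.Agent.Jac.W1

section General

variable {C : Scheme.{u}} [IsIntegral C]

/-- The open set where a rational function is regular. -/
def regOpen (f : C.functionField) : C.Opens where
  carrier := {x | ∃ a : C.presheaf.stalk x, algebraMap (C.presheaf.stalk x) C.functionField a = f}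
  is_open' := by
    refine isOpen_iff_forall_mem_open.mpr fun x ⟨a, ha⟩ => ?_
    obtain ⟨V, hxV, g, rfl⟩ := C.presheaf.exists_germ_eq a
    have := nonempty_opens hxV
    rw [Scheme.algebraMap_germ_eq_germToFunctionField] at ha
    exact ⟨V, fun y hy => ⟨C.presheaf.germ V y hy g, by
      rw [Scheme.algebraMap_germ_eq_germToFunctionField]; exact ha⟩, V.isOpen, hxV⟩

theorem genericPoint_mem {V : C.Opens} [Nonempty V] : genericPoint C ∈ V :=
  ((genericPoint_spec C).mem_open_set_iff V.isOpen).mpr (by simpa using ‹Nonempty V›)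

theorem mem_regOpen_generic (f : C.functionField) : genericPoint C ∈ regOpen f :=
  ⟨f, by simp [RingHom.algebraMap_toAlgebra]⟩

instance (f : C.functionField) : Nonempty (regOpen f) := ⟨⟨_, mem_regOpen_generic f⟩⟩

theorem exists_regSection (f : C.functionField) :
    ∃ s : Γ(C, regOpen f), C.germToFunctionField (regOpen f) s = f := by
  let ι := {p : Σ V : C.Opens, Γ(C, V) //
    ∃ h : genericPoint C ∈ p.1, C.presheaf.germ p.1 _ h p.2 = f}
  have hle : ∀ i : ι, i.1.1 ≤ regOpen f := by
    rintro ⟨⟨V, g⟩, h, hg⟩ x hx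
    have := nonempty_opens h
    exact ⟨C.presheaf.germ V x hx g, by
      rw [Scheme.algebraMap_germ_eq_germToFunctionField]; exact hg⟩
  have hcomp : TopCat.Presheaf.IsCompatible C.presheaf (fun i : ι => i.1.1) fun i => i.1.2 := by
    rintro ⟨⟨V, g⟩, h, hg⟩ ⟨⟨W, g'⟩, h', hg'⟩
    refine germ_injective_of_isIntegral C (genericPoint C)
      (show genericPoint C ∈ V ⊓ W from ⟨h, h'⟩) ?_
    rw [TopCat.Presheaf.germ_res_apply, TopCat.Presheaf.germ_res_apply]
    exact hg.trans hg'.symm
  obtain ⟨s, hs, -⟩ := C.sheaf.existsUnique_gluing' (fun i : ι => i.1.1) (regOpen f)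
    (fun i => homOfLE (hle i)) (by
      rintro x ⟨a, ha⟩
      obtain ⟨V, hxV, g, rfl⟩ := C.presheaf.exists_germ_eq a
      have := nonempty_opens hxV
      rw [Scheme.algebraMap_germ_eq_germToFunctionField] at ha
      exact Opens.mem_iSup.mpr ⟨⟨⟨V, g⟩, genericPoint_mem, ha⟩, hxV⟩)
    (fun i => i.1.2) hcomp
  refine ⟨s, ?_⟩
  obtain ⟨W, hW, g, hg⟩ := C.presheaf.exists_germ_eq f
  have h1 := hs ⟨⟨W, g⟩, hW, hg⟩
  calc C.germToFunctionField (regOpen f) s
      = C.presheaf.germ W _ hW (C.presheaf.map (homOfLE (hle ⟨⟨W, g⟩, hW, hg⟩)).op s) :=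
        (TopCat.Presheaf.germ_res_apply C.presheaf _ _ hW s).symm
    _ = C.presheaf.germ W _ hW g := congrArg _ h1
    _ = f := hg

/-- The section of a rational function on the open set where it is regular. -/
noncomputable def regSection (f : C.functionField) : Γ(C, regOpen f) :=
  (exists_regSection f).choose

theorem germ_regSection (f : C.functionField) :
    C.germToFunctionField (regOpen f) (regSection f) = f :=
  (exists_regSection f).choose_spec

theorem isUnit_germ_of_mul {f : C.functionField} {x : C} (hf : x ∈ regOpen f⁻¹)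
    (hu : IsUnit (C.presheaf.germ (regOpen f⁻¹) x hf (regSection f⁻¹))) :
    x ∈ regOpen f := by
  obtain ⟨v, hv⟩ := hu
  refine ⟨((v⁻¹ : (C.presheaf.stalk x)ˣ) : C.presheaf.stalk x), ?_⟩
  rw [map_units_inv, hv, Scheme.algebraMap_germ_eq_germToFunctionField, germ_regSection, inv_inv]

end General

theorem appLE_congr_hom {X Y : Scheme.{u}} {g g' : X ⟶ Y} (h : g = g') {U : Y.Opens} {V : X.Opens}
    (e : V ≤ g ⁻¹ᵁ U) (e' : V ≤ g' ⁻¹ᵁ U) : g.appLE U V e = g'.appLE U V e' := by
  subst h; rfl

section Curve

variable {k : Type u} [Field k] [IsAlgClosed k] {C : Scheme.{u}} (c : C ⟶ Spec (CommRingCat.of k))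
  [IsProper c] [SmoothOfRelativeDimension 1 c] [IsIntegral C]

omit [IsProper c] in
include c in
/-- Every rational function or its inverse is regular at each point. -/
theorem mem_regOpen_or_inv (f : C.functionField) (x : C) :
    x ∈ regOpen f ∨ x ∈ regOpen f⁻¹ := by
  rcases eq_or_ne x (genericPoint C) with rfl | hx
  · exact Or.inl (mem_regOpen_generic f)
  · have := isDVR_stalk c (isClosed_singleton c hx)
    rcases ValuationRing.isInteger_or_isInteger (C.presheaf.stalk x) f with ⟨a, ha⟩ | ⟨a, ha⟩
    · exact Or.inl ⟨a, ha⟩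
    · exact Or.inr ⟨a, ha⟩

/-- The structure map into the function field. -/
noncomputable def kToK : k →+* C.functionField :=
  (C.germToFunctionField (regOpen 0)).hom.comp (kHom c (regOpen 0))

omit [IsAlgClosed k] [IsProper c] [SmoothOfRelativeDimension 1 c] in
theorem germ_kHom (V : C.Opens) [Nonempty V] (a : k) :
    C.germToFunctionField V (kHom c V a) = kToK c a := by
  have : Nonempty ↑(V ⊓ regOpen 0) := ⟨⟨_, genericPoint_mem, mem_regOpen_generic 0⟩⟩
  have h1 := kHom_res c (inf_le_left : V ⊓ regOpen 0 ≤ V) a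
  have h2 := kHom_res c (inf_le_right : V ⊓ regOpen 0 ≤ regOpen 0) a
  have h3 : C.presheaf.germ (V ⊓ regOpen 0) _ genericPoint_mem
      (C.presheaf.map (homOfLE (inf_le_left : V ⊓ regOpen 0 ≤ V)).op (kHom c V a)) =
    C.presheaf.germ (V ⊓ regOpen 0) _ genericPoint_mem
      (C.presheaf.map (homOfLE (inf_le_right : V ⊓ regOpen 0 ≤ regOpen 0)).op
        (kHom c (regOpen 0) a)) := congrArg _ (h1.trans h2.symm)
  rw [TopCat.Presheaf.germ_res_apply, TopCat.Presheaf.germ_res_apply] at h3
  exact h3

variable (f : C.functionField)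

/-- The polynomial functions in `f`. -/
noncomputable def polyHom : k[X] →+* Γ(C, regOpen f) :=
  eval₂RingHom (kHom c (regOpen f)) (regSection f)

omit [IsAlgClosed k] [IsProper c] [SmoothOfRelativeDimension 1 c] in
theorem germ_polyHom (p : k[X]) :
    C.germToFunctionField (regOpen f) (polyHom c f p) = p.eval₂ (kToK c) f := by
  rw [polyHom, coe_eval₂RingHom, hom_eval₂, germ_regSection]
  congr 1
  exact RingHom.ext fun a => germ_kHom c _ a

/-- The map to the affine line given by `f`. -/
noncomputable def lineMap : (regOpen f).toScheme ⟶ Spec (CommRingCat.of k[X]) :=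
  (regOpen f).toSpecΓ ≫ Spec.map (CommRingCat.ofHom (polyHom c f))

omit [IsAlgClosed k] [IsProper c] [SmoothOfRelativeDimension 1 c] in
theorem lineMap_over :
    lineMap c f ≫ Spec.map (CommRingCat.ofHom (Polynomial.C (R := k))) = (regOpen f).ι ≫ c := by
  have h1 : CommRingCat.ofHom (Polynomial.C (R := k)) ≫ CommRingCat.ofHom (polyHom c f) =
      (Scheme.ΓSpecIso (CommRingCat.of k)).inv ≫
        c.appLE ⊤ (regOpen f) (le_preimage_top c _) :=
    CommRingCat.hom_ext (RingHom.ext fun a => by simp [polyHom, kHom])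
  rw [lineMap, Category.assoc, ← Spec.map_comp, h1, Spec.map_comp, ← Category.assoc,
    Scheme.Opens.toSpecΓ_SpecMap_appLE, Category.assoc, Scheme.Opens.toSpecΓ_top, Category.assoc,
    ← SpecMap_ΓSpecIso_hom, ← Spec.map_comp, Iso.inv_hom_id, Spec.map_id, Category.comp_id,
    Scheme.Hom.resLE_comp_ι]

omit [IsAlgClosed k] [IsProper c] [SmoothOfRelativeDimension 1 c] in
theorem lineMap_appTop (p : k[X]) :
    (lineMap c f).appTop ((Scheme.ΓSpecIso (CommRingCat.of k[X])).inv p) =
      (regOpen f).topIso.inv (polyHom c f p) := by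
  have h : (Scheme.ΓSpecIso (CommRingCat.of k[X])).inv ≫ (lineMap c f).appTop =
      CommRingCat.ofHom (polyHom c f) ≫ (regOpen f).topIso.inv := by
    rw [lineMap, Scheme.Hom.comp_appTop, Scheme.Opens.toSpecΓ_appTop,
      ← Scheme.ΓSpecIso_inv_naturality_assoc, Iso.inv_hom_id_assoc]
  exact congr($h p)

omit [IsAlgClosed k] [IsProper c] [SmoothOfRelativeDimension 1 c] in
theorem lineMap_preimage_basicOpen (p : k[X]) (y : (regOpen f).toScheme) :
    lineMap c f y ∈ PrimeSpectrum.basicOpen p ↔
      (regOpen f).ι y ∈ C.basicOpen (polyHom c f p) := by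
  change y ∈ (lineMap c f) ⁻¹ᵁ (PrimeSpectrum.basicOpen p : (Spec (CommRingCat.of k[X])).Opens) ↔ _
  rw [show (PrimeSpectrum.basicOpen p : (Spec (CommRingCat.of k[X])).Opens) = _ from
    (basicOpen_eq_of_affine (R := CommRingCat.of k[X]) p).symm]
  rw [Scheme.preimage_basicOpen, show (lineMap c f).app ⊤ = (lineMap c f).appTop from rfl,
    ]
  erw [lineMap_appTop c f p]
  rw [← (regOpen f).ι_image_basicOpen_topIso_inv (polyHom c f p)]
  exact ((regOpen f).ι.isOpenEmbedding.injective.mem_set_image).symm

omit [IsAlgClosed k] [IsProper c] [SmoothOfRelativeDimension 1 c] in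
theorem mem_basicOpen_of_germ_ne_zero {V : C.Opens} [Nonempty V] {s : Γ(C, V)}
    (h : C.germToFunctionField V s ≠ 0) : genericPoint C ∈ C.basicOpen s :=
  (Scheme.mem_basicOpen C s (genericPoint C) genericPoint_mem).mpr h.isUnit

/-- The graph of `f` in the product of the curve with the affine line. -/
noncomputable def graphMap : (regOpen f).toScheme ⟶
    pullback c (Spec.map (CommRingCat.ofHom (Polynomial.C (R := k)))) :=
  pullback.lift (regOpen f).ι (lineMap c f) (lineMap_over c f).symm

omit [IsProper c] in
include c in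
theorem isClosed_range_graphMap (hf0 : f ≠ 0) : IsClosed (Set.range (graphMap c f)) := by
  rw [← isOpen_compl_iff, isOpen_iff_forall_mem_open]
  intro z hz
  let p₁ := pullback.fst c (Spec.map (CommRingCat.ofHom (Polynomial.C (R := k))))
  let p₂ := pullback.snd c (Spec.map (CommRingCat.ofHom (Polynomial.C (R := k))))
  have hfst : graphMap c f ≫ p₁ = (regOpen f).ι := pullback.lift_fst _ _ _
  have hsnd : graphMap c f ≫ p₂ = lineMap c f := pullback.lift_snd _ _ _
  by_cases hx : p₁ z ∈ regOpen f
  · let W₀ := p₁ ⁻¹ᵁ regOpen f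
    let σ : (regOpen f).toScheme ⟶ W₀.toScheme :=
      IsOpenImmersion.lift W₀.ι (graphMap c f) (by
        rintro _ ⟨y, rfl⟩
        rw [Scheme.Opens.range_ι]
        show p₁ (graphMap c f y) ∈ regOpen f
        rw [← Scheme.Hom.comp_apply, hfst]
        exact y.2)
    have hσ : σ ≫ W₀.ι = graphMap c f := IsOpenImmersion.lift_fac _ _ _
    have hsec : σ ≫ (p₁ ∣_ regOpen f) = 𝟙 _ := by
      rw [← cancel_mono (regOpen f).ι, Category.assoc, morphismRestrict_ι, ← Category.assoc, hσ,
        hfst, Category.id_comp]
    have : IsClosedImmersion (σ ≫ (p₁ ∣_ regOpen f)) := by rw [hsec]; infer_instance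
    have : IsClosedImmersion σ := IsClosedImmersion.of_comp σ (p₁ ∣_ regOpen f)
    refine ⟨W₀.ι '' (Set.range σ)ᶜ, ?_,
      W₀.ι.isOpenEmbedding.isOpenMap _ σ.isClosedEmbedding.isClosed_range.isOpen_compl,
      ⟨⟨z, hx⟩, ?_, rfl⟩⟩
    · rintro _ ⟨w, hw, rfl⟩ ⟨y, hy⟩
      exact hw ⟨y, W₀.ι.isOpenEmbedding.injective (by rw [← Scheme.Hom.comp_apply, hσ]; exact hy)⟩
    · rintro ⟨y, hy⟩
      exact hz ⟨y, by rw [← hσ, Scheme.Hom.comp_apply, hy]; rfl⟩
  · have hx' : p₁ z ∈ regOpen f⁻¹ := (mem_regOpen_or_inv c f (p₁ z)).resolve_left hx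
    let W := p₁ ⁻¹ᵁ regOpen f⁻¹
    let G := p₁.appLE (regOpen f⁻¹) W le_rfl (regSection f⁻¹)
    let Xp := p₂.appLE ⊤ W (by simp) ((Scheme.ΓSpecIso (CommRingCat.of k[X])).inv Polynomial.X)
    refine ⟨(pullback c _).basicOpen (G * Xp - 1), ?_, Opens.isOpen _, ?_⟩
    · rintro w hw ⟨y, rfl⟩
      have hmem : y ∈ graphMap c f ⁻¹ᵁ (pullback c _).basicOpen (G * Xp - 1) := hw
      rw [Scheme.preimage_basicOpen] at hmem
      let W' := graphMap c f ⁻¹ᵁ W
      have hW' : W' ≤ (regOpen f).ι ⁻¹ᵁ regOpen f⁻¹ := by rw [← hfst]; exact le_rfl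
      have hy' : y ∈ W' := Scheme.basicOpen_le _ _ hmem
      have e1 : (graphMap c f).appLE W W' le_rfl G =
          (regOpen f).ι.appLE (regOpen f⁻¹) W' hW' (regSection f⁻¹) := by
        rw [← ConcreteCategory.comp_apply, Scheme.Hom.appLE_comp_appLE,
          appLE_congr_hom hfst _ hW']
      have e2 : (graphMap c f).appLE W W' le_rfl Xp =
          (lineMap c f).appLE ⊤ W' (by simp)
            ((Scheme.ΓSpecIso (CommRingCat.of k[X])).inv Polynomial.X) := by
        erw [← ConcreteCategory.comp_apply, Scheme.Hom.appLE_comp_appLE]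
        rw [appLE_congr_hom hsnd]
      have e3 : (lineMap c f).appLE ⊤ W' (by simp)
            ((Scheme.ΓSpecIso (CommRingCat.of k[X])).inv Polynomial.X) =
          (regOpen f).toScheme.presheaf.map (homOfLE le_top).op
            ((regOpen f).topIso.inv (regSection f)) := by
        have h := (lineMap_appTop c f Polynomial.X).trans
          (congrArg _ (by simp [polyHom] : polyHom c f Polynomial.X = regSection f))
        simp only [Scheme.Hom.appLE]
        exact congrArg _ h
      have hzero : (graphMap c f).app W (G * Xp - 1) = 0 := by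
        rw [Scheme.Hom.app_eq_appLE, map_sub, map_mul, map_one, e1, e2, e3, sub_eq_zero]
        simp only [Scheme.Opens.ι_appLE, Scheme.Opens.toScheme_presheaf_map,
          Scheme.Opens.topIso_inv]
        refine germ_injective_of_isIntegral C (genericPoint C)
          (U := (regOpen f).ι ''ᵁ W') ?_ ?_
        · have : Nonempty ((regOpen f).ι ''ᵁ W') := ⟨⟨_, y, hy', rfl⟩⟩
          exact genericPoint_mem
        erw [map_mul, map_one, TopCat.Presheaf.germ_res_apply, TopCat.Presheaf.germ_res_apply,
          TopCat.Presheaf.germ_res_apply]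
        exact (congrArg₂ (· * ·) (germ_regSection f⁻¹) (germ_regSection f)).trans
          (inv_mul_cancel₀ hf0)
      erw [hzero, Scheme.basicOpen_zero] at hmem
      exact hmem
    · show z ∈ (pullback c _).basicOpen (G * Xp - 1)
      rw [Scheme.mem_basicOpen _ _ z hx']
      have hG : ¬ IsUnit ((pullback c _).presheaf.germ W z hx' G) := by
        intro hu
        have h2 : z ∈ (pullback c _).basicOpen G :=
          (Scheme.mem_basicOpen _ _ z hx').mpr hu
        rw [Scheme.basicOpen_appLE] at h2
        exact hx (isUnit_germ_of_mul hx' ((Scheme.mem_basicOpen _ _ _ hx').mp h2.2))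
      rw [map_sub, map_mul, map_one]
      by_contra hnu
      refine hG (isUnit_of_mul_isUnit_left ((IsLocalRing.isUnit_or_isUnit_of_add_one
        (a := (pullback c _).presheaf.germ W z hx' G * (pullback c _).presheaf.germ W z hx' Xp)
        (b := -((pullback c _).presheaf.germ W z hx' G *
          (pullback c _).presheaf.germ W z hx' Xp - 1))
        (by ring)).resolve_right fun h => hnu (by simpa using h.neg)))

include c in
theorem isProper_lineMap (hf0 : f ≠ 0) : IsProper (lineMap c f) := by
  have : IsImmersion (graphMap c f ≫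
      pullback.fst c (Spec.map (CommRingCat.ofHom (Polynomial.C (R := k))))) := by
    rw [graphMap, pullback.lift_fst]; infer_instance
  have : IsImmersion (graphMap c f) :=
    IsImmersion.of_comp _ (pullback.fst c (Spec.map (CommRingCat.ofHom (Polynomial.C (R := k)))))
  have : IsClosedImmersion (graphMap c f) :=
    IsClosedImmersion.of_isPreimmersion _ (isClosed_range_graphMap c f hf0)
  rw [← pullback.lift_snd (regOpen f).ι (lineMap c f) (lineMap_over c f).symm]
  show IsProper (graphMap c f ≫ _)
  infer_instance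

variable (hf : ∀ p : k[X], p.eval₂ (kToK c) f = 0 → p = 0)

include c hf in
theorem finite_preimage_lineMap [IsProper (lineMap c f)] (q : Spec (CommRingCat.of k[X])) :
    ((lineMap c f) ⁻¹' {q}).Finite := by
  by_cases hq : ∃ p ∈ q.asIdeal, p ≠ 0
  · obtain ⟨p, hpq, hp0⟩ := hq
    refine ((finite_of_isClosed c (C.basicOpen (polyHom c f p)).isOpen.isClosed_compl ?_).preimage
      (regOpen f).ι.isOpenEmbedding.injective.injOn).subset ?_
    · exact not_not_intro (mem_basicOpen_of_germ_ne_zero (by
        rw [germ_polyHom]; exact fun h => hp0 (hf p h)))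
    · intro y hy hmem
      have h := (lineMap_preimage_basicOpen c f p y).mpr hmem
      rw [show lineMap c f y = q from hy] at h
      exact h hpq
  · push Not at hq
    have : JacobsonSpace (Spec (CommRingCat.of k[X])) :=
      PrimeSpectrum.isJacobsonRing_iff_jacobsonSpace.mp inferInstance
    refine ((Set.finite_singleton (genericPoint C)).preimage
      (regOpen f).ι.isOpenEmbedding.injective.injOn).subset fun y hy => ?_
    by_contra hne
    have hcl : IsClosed ({y} : Set (regOpen f).toScheme) := by
      have := (isClosed_singleton c (x := (regOpen f).ι y) hne).preimage (regOpen f).ι.continuous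
      rwa [← Set.image_singleton,
        (regOpen f).ι.isOpenEmbedding.injective.preimage_image] at this
    have h := (lineMap c f).closePoints_subset_preimage_closedPoints hcl
    rw [Set.mem_preimage, show lineMap c f y = q from hy, mem_closedPoints_iff] at h
    replace h := (PrimeSpectrum.isClosed_singleton_iff_isMaximal (R := k[X]) q).mp h
    have hbot : q.asIdeal = ⊥ := (Submodule.eq_bot_iff _).mpr hq
    exact Polynomial.not_isField k
      (Ring.isField_iff_maximal_bot.mpr (hbot ▸ h) : IsField k[X])

include c hf in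
/-- The regular open of a transcendental function is finite over the affine line. -/
theorem isFinite_lineMap : IsFinite (lineMap c f) := by
  have hf0 : f ≠ 0 := fun h => X_ne_zero (hf X (by rw [eval₂_X, h]))
  have := isProper_lineMap c f hf0
  have : LocallyQuasiFinite (lineMap c f) :=
    .of_finite_preimage_singleton _ (finite_preimage_lineMap c f hf)
  exact .of_isProper_of_locallyQuasiFinite _

include c hf in
/-- The regular locus of a nonconstant rational function is affine. -/
theorem isAffineOpen_regOpen : IsAffineOpen (regOpen f) := by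
  have := isFinite_lineMap c f hf
  exact isAffine_of_isAffineHom (lineMap c f)

include c hf in
/-- The functions on the regular locus of `f` are finite over the polynomials in `f`. -/
theorem finite_polyHom : (polyHom c f).Finite := by
  have := isFinite_lineMap c f hf
  have hU := isAffineOpen_regOpen c f hf
  have : IsIso (regOpen f).toSpecΓ := by rw [← hU.isoSpec_hom]; infer_instance
  have h : IsFinite (Spec.map (CommRingCat.ofHom (polyHom c f))) := by
    rw [show Spec.map (CommRingCat.ofHom (polyHom c f)) =
      inv (regOpen f).toSpecΓ ≫ lineMap c f by simp [lineMap]]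
    infer_instance
  exact (IsFinite.SpecMap_iff (f := CommRingCat.ofHom (polyHom c f))).mp h

end Curve

end Fermat.Agent.Jac.W1
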