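import Mathlib

/-!
# Tensor products of domains over an algebraically closed field

`isDomain_tensor` shows that they are domains.
-/

set_option autoImplicit false

universe u

open scoped TensorProduct

namespace Fermat.Agent.Jac.W1

variable {k : Type u} [Field k] [IsAlgClosed k]

/-- A product of two finitely generated domain elements vanishing at every point is zero. -/
theorem eq_zero_of_forall_algHom {A : Type u} [CommRing A] [IsReduced A] [Algebra k A]
    [Algebra.FiniteType k A] {a : A} (h : ∀ φ : A →ₐ[k] k, φ a = 0) : a = 0 := by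
  have : IsJacobsonRing A := isJacobsonRing_of_finiteType (A := k)
  have hmem : a ∈ (⊥ : Ideal A).jacobson := by
    refine Ideal.mem_sInf.mpr fun {m} hm => ?_
    have := hm.2
    let := Ideal.Quotient.field m
    have : Module.Finite k (A ⧸ m) := finite_of_finite_type_of_isJacobsonRing k (A ⧸ m)
    have hbij : Function.Bijective (Algebra.ofId k (A ⧸ m)) :=
      IsAlgClosed.algebraMap_bijective_of_isIntegral
    let e := AlgEquiv.ofBijective (Algebra.ofId k (A ⧸ m)) hbij
    have := h (e.symm.toAlgHom.comp (Ideal.Quotient.mkₐ k m))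
    simp only [AlgHom.comp_apply, Ideal.Quotient.mkₐ_eq_mk, AlgEquiv.coe_toAlgHom,
      map_eq_zero_iff _ e.symm.injective] at this
    exact Ideal.Quotient.eq_zero_iff_mem.mp this
  have hrad : (⊥ : Ideal A).IsRadical := fun x hx => by
    obtain ⟨n, hn⟩ := hx
    exact Ideal.mem_bot.mpr (IsReduced.eq_zero x ⟨n, Ideal.mem_bot.mp hn⟩)
  rwa [IsJacobsonRing.out inferInstance hrad, Ideal.mem_bot] at hmem

/-- The tensor product of two domains over an algebraically closed field is a domain. -/
theorem isDomain_tensor (A B : Type u) [CommRing A] [IsDomain A] [Algebra k A]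
    [CommRing B] [IsDomain B] [Algebra k B] : IsDomain (A ⊗[k] B) := by
  classical
  have : Nontrivial (A ⊗[k] B) :=
    Algebra.TensorProduct.nontrivial_of_algebraMap_injective_of_isDomain k A B
      (algebraMap k A).injective (algebraMap k B).injective
  have : NoZeroDivisors (A ⊗[k] B) := by
    refine ⟨fun {x y} hxy => ?_⟩
    let b := Module.Basis.ofVectorSpace k B
    let bA := Algebra.TensorProduct.basis A b
    let S : Finset A := (bA.repr x).support.image (bA.repr x) ∪
      (bA.repr y).support.image (bA.repr y)
    let A' : Subalgebra k A := Algebra.adjoin k (S : Set A)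
    have : Algebra.FiniteType k A' :=
      (Subalgebra.fg_iff_finiteType A').mp (Subalgebra.fg_adjoin_finset S)
    let ι : A' ⊗[k] B →ₐ[k] A ⊗[k] B :=
      Algebra.TensorProduct.map A'.val (AlgHom.id k B)
    have hι : Function.Injective ι :=
      Module.Flat.rTensor_preserves_injective_linearMap (M := B) A'.val.toLinearMap
        Subtype.val_injective
    have hlift : ∀ z : A ⊗[k] B, (∀ i, bA.repr z i ∈ A') → ∃ c : _ →₀ A',
        (∀ i, (c i : A) = bA.repr z i) ∧
          ι (c.sum fun i a => a ⊗ₜ b i) = z := by
      intro z hz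
      let c : _ →₀ A' := Finsupp.onFinset (bA.repr z).support (fun i => ⟨_, hz i⟩)
        (fun i hi => Finsupp.mem_support_iff.mpr fun h0 => hi (Subtype.ext h0))
      refine ⟨c, fun i => rfl, ?_⟩
      conv_rhs => rw [← bA.linearCombination_repr z, Finsupp.linearCombination_apply]
      rw [map_finsuppSum, Finsupp.onFinset_sum _ (fun i => by simp)]
      refine Finset.sum_congr rfl fun i _ => ?_
      simp [ι, bA, TensorProduct.smul_tmul']
    have hmemA : ∀ i, bA.repr x i ∈ A' ∧ bA.repr y i ∈ A' := fun i => by
      constructor
      · by_cases h0 : i ∈ (bA.repr x).support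
        · exact Algebra.subset_adjoin (Finset.mem_coe.mpr (Finset.mem_union_left _
            (Finset.mem_image_of_mem _ h0)))
        · rw [Finsupp.notMem_support_iff.mp h0]; exact A'.zero_mem
      · by_cases h0 : i ∈ (bA.repr y).support
        · exact Algebra.subset_adjoin (Finset.mem_coe.mpr (Finset.mem_union_right _
            (Finset.mem_image_of_mem _ h0)))
        · rw [Finsupp.notMem_support_iff.mp h0]; exact A'.zero_mem
    obtain ⟨c, hc, hcx⟩ := hlift x fun i => (hmemA i).1
    obtain ⟨d, hd, hdy⟩ := hlift y fun i => (hmemA i).2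
    have hprod : ∀ i j, c i * d j = 0 := by
      intro i j
      refine eq_zero_of_forall_algHom (k := k) (A := A') fun φ => ?_
      let ev : A' ⊗[k] B →ₐ[k] B :=
        Algebra.TensorProduct.lift ((Algebra.ofId k B).comp φ) (AlgHom.id k B)
          fun _ _ => Commute.all _ _
      have hev : ∀ e : _ →₀ A', ev (e.sum fun i a => a ⊗ₜ b i) =
          Finsupp.linearCombination k b (e.mapRange φ (map_zero φ)) := by
        intro e
        rw [map_finsuppSum, Finsupp.linearCombination_apply,
          Finsupp.sum_mapRange_index (fun i => zero_smul k (b i))]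
        refine Finsupp.sum_congr fun i _ => ?_
        simp [ev, Algebra.smul_def]
      have hz : ev (c.sum fun i a => a ⊗ₜ b i) * ev (d.sum fun i a => a ⊗ₜ b i) = 0 := by
        rw [← map_mul, show (c.sum fun i a => a ⊗ₜ[k] b i) * (d.sum fun i a => a ⊗ₜ b i) = 0 from
          hι (by rw [map_mul, hcx, hdy, hxy, map_zero]), map_zero]
      have key : ∀ e : _ →₀ A', ev (e.sum fun i a => a ⊗ₜ b i) = 0 → ∀ l, φ (e l) = 0 := by
        intro e he l
        rw [hev] at he
        have := linearIndependent_iff.mp b.linearIndependent _ he
        simpa using DFunLike.congr_fun this l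
      rw [map_mul]
      rcases mul_eq_zero.mp hz with h | h
      · rw [key c h i, zero_mul]
      · rw [key d h j, mul_zero]
    by_contra hne
    push Not at hne
    obtain ⟨i, hi⟩ := Finsupp.ne_iff.mp ((map_ne_zero_iff _ bA.repr.injective).mpr hne.1)
    obtain ⟨j, hj⟩ := Finsupp.ne_iff.mp ((map_ne_zero_iff _ bA.repr.injective).mpr hne.2)
    have := congrArg Subtype.val (hprod i j)
    simp only [MulMemClass.coe_mul, hc, hd, ZeroMemClass.coe_zero, mul_eq_zero] at this
    exact this.elim hi hj
  exact NoZeroDivisors.to_isDomain _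

end Fermat.Agent.Jac.W1
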