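import Mathlib
import Fermat.Agent.Jac.W1.FunctionOpen
import Fermat.Agent.Jac.W1.TensorDomain

/-!
# Charts, constants and base change for a smooth proper curve

The facts about charts used to build the two-chart model.
-/

set_option autoImplicit false

universe u

open CategoryTheory CategoryTheory.Limits AlgebraicGeometry TopologicalSpace Opposite Polynomial
open scoped TensorProduct

namespace Fermat.Agent.Jac.W1

section General

variable {C : Scheme.{u}} [IsIntegral C]

theorem basicOpen_regSection (f : C.functionField) (hf : f ≠ 0) :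
    C.basicOpen (regSection f) = regOpen f ⊓ regOpen f⁻¹ := by
  ext x
  constructor
  · intro hx
    have hxU : x ∈ regOpen f := C.basicOpen_le _ hx
    refine ⟨hxU, ?_⟩
    obtain ⟨v, hv⟩ := (Scheme.mem_basicOpen C _ x hxU).mp hx
    refine ⟨((v⁻¹ : (C.presheaf.stalk x)ˣ) : C.presheaf.stalk x), ?_⟩
    rw [map_units_inv, hv, Scheme.algebraMap_germ_eq_germToFunctionField, germ_regSection]
  · rintro ⟨hxU, b, hb⟩
    refine (Scheme.mem_basicOpen C _ x hxU).mpr (IsUnit.of_mul_eq_one b ?_)
    apply IsFractionRing.injective (C.presheaf.stalk x) C.functionField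
    rw [map_mul, hb, map_one, Scheme.algebraMap_germ_eq_germToFunctionField, germ_regSection,
      mul_inv_cancel₀ hf]

omit [IsIntegral C] in
theorem exists_pow_mul_res {V W : C.Opens} (hV : IsAffineOpen V) (s : Γ(C, V))
    (hW : W = C.basicOpen s) (hWV : W ≤ V) (x : Γ(C, W)) :
    ∃ (n : ℕ) (y : Γ(C, V)), C.presheaf.map (homOfLE hWV).op y =
      C.presheaf.map (homOfLE hWV).op s ^ n * x := by
  subst hW
  have := hV.isLocalization_basicOpen s
  obtain ⟨⟨y, _, n, rfl⟩, h⟩ := IsLocalization.surj (Submonoid.powers s) x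
  refine ⟨n, y, ?_⟩
  rw [map_pow] at h
  rw [mul_comm]
  exact h.symm

theorem germ_res' {V W : C.Opens} [Nonempty V] [Nonempty W] (h : W ≤ V) (s : Γ(C, V)) :
    C.germToFunctionField W (C.presheaf.map (homOfLE h).op s) = C.germToFunctionField V s :=
  TopCat.Presheaf.germ_res_apply C.presheaf _ _ genericPoint_mem s

omit [IsIntegral C] in
theorem exists_glue {U V : C.Opens} (hUV : U ⊔ V = ⊤) (a : Γ(C, U)) (b : Γ(C, V))
    (h : C.presheaf.map (homOfLE (inf_le_left : U ⊓ V ≤ U)).op a =
      C.presheaf.map (homOfLE (inf_le_right : U ⊓ V ≤ V)).op b) :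
    ∃ g : Γ(C, ⊤), C.presheaf.map (homOfLE le_top).op g = a := by
  let T : ULift.{u} Bool → C.Opens := fun i => if i.down then U else V
  let sf : ∀ i, Γ(C, T i) := fun i =>
    match i with
    | ⟨true⟩ => a
    | ⟨false⟩ => b
  have hcomp : TopCat.Presheaf.IsCompatible C.presheaf T sf := by
    rintro ⟨_ | _⟩ ⟨_ | _⟩
    · rfl
    · have h' := congrArg (C.presheaf.map
        (homOfLE (show V ⊓ U ≤ U ⊓ V from inf_comm V U |>.le)).op) h
      rw [← ConcreteCategory.comp_apply, ← ConcreteCategory.comp_apply, ← C.presheaf.map_comp,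
        ← C.presheaf.map_comp] at h'
      exact h'.symm
    · exact h
    · rfl
  obtain ⟨g, hg, -⟩ := C.sheaf.existsUnique_gluing' T ⊤ (fun i => homOfLE le_top) (by
    rw [← hUV]
    exact sup_le (le_iSup T ⟨true⟩) (le_iSup T ⟨false⟩)) sf hcomp
  exact ⟨g, hg ⟨true⟩⟩

end General

variable {k : Type u} [Field k] [IsAlgClosed k] {C : Scheme.{u}} (c : C ⟶ Spec (CommRingCat.of k))

theorem eval₂_ne_zero_of_notMem_range {L : Type u} [Field L] (σ : k →+* L) {x : L}
    (hx : x ∉ Set.range σ) (p : k[X]) (hp : p.eval₂ σ x = 0) : p = 0 := by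
  by_contra hp0
  have hroot : x ∈ (p.map σ).roots := by
    rw [mem_roots ((Polynomial.map_ne_zero_iff σ.injective).mpr hp0), IsRoot.def,
      Polynomial.eval_map]
    exact hp
  rw [(IsAlgClosed.splits p).roots_map σ] at hroot
  obtain ⟨a, -, rfl⟩ := Multiset.mem_map.mp hroot
  exact hx ⟨a, rfl⟩

theorem kHom_top_bijective [IsProper c] [IsIntegral C] :
    Function.Bijective (kHom c ⊤) := by
  have h : (kHom c ⊤).Finite := by
    rw [kHom, CommRingCat.hom_comp,
      show c.appLE ⊤ ⊤ (le_preimage_top c ⊤) = c.appTop by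
        simp [Scheme.Hom.appLE, Scheme.Hom.appTop]]
    exact (finite_appTop_of_universallyClosed k c).comp (RingHom.Finite.of_surjective _
      (Scheme.ΓSpecIso (CommRingCat.of k)).symm.commRingCatIsoToRingEquiv.surjective)
  let : Algebra k Γ(C, ⊤) := (kHom c ⊤).toAlgebra
  have : Module.Finite k Γ(C, ⊤) := h
  exact IsAlgClosed.algebraMap_bijective_of_isIntegral

omit [IsAlgClosed k] in
theorem toSpecΓ_kHom (V : C.Opens) :
    V.toSpecΓ ≫ Spec.map (CommRingCat.ofHom (kHom c V)) = V.ι ≫ c := by
  rw [show CommRingCat.ofHom (kHom c V) =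
      (Scheme.ΓSpecIso (CommRingCat.of k)).inv ≫ c.appLE ⊤ V (le_preimage_top c V) from rfl,
    Spec.map_comp, ← Category.assoc,
    Scheme.Opens.toSpecΓ_SpecMap_appLE, Category.assoc, Scheme.Opens.toSpecΓ_top, Category.assoc,
    ← SpecMap_ΓSpecIso_hom, ← Spec.map_comp, Iso.inv_hom_id, Spec.map_id, Category.comp_id,
    Scheme.Hom.resLE_comp_ι]

omit [IsAlgClosed k] in
theorem fromSpec_over {V : C.Opens} (hV : IsAffineOpen V) :
    hV.fromSpec ≫ c = Spec.map (CommRingCat.ofHom (kHom c V)) := by
  rw [← cancel_epi hV.isoSpec.hom, hV.isoSpec_hom, toSpecΓ_kHom, ← Category.assoc,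
    ← hV.isoSpec_hom, hV.isoSpec_hom_fromSpec]

omit [IsAlgClosed k] in
/-- Two affine opens and their intersection form a pullback square. -/
theorem isPullback_charts {U V W : C.Opens} (hU : IsAffineOpen U) (hV : IsAffineOpen V)
    (hW : IsAffineOpen W) (hWeq : W = U ⊓ V) :
    IsPullback (Spec.map (C.presheaf.map (homOfLE (hWeq.le.trans inf_le_left)).op))
      (Spec.map (C.presheaf.map (homOfLE (hWeq.le.trans inf_le_right)).op))
      hU.fromSpec hV.fromSpec := by
  have h0 := hU.map_fromSpec hW (homOfLE (hWeq.le.trans inf_le_left)).op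
  have h1 := hV.map_fromSpec hW (homOfLE (hWeq.le.trans inf_le_right)).op
  set m1 := Spec.map (C.presheaf.map (homOfLE (hWeq.le.trans inf_le_right)).op)
  have : IsOpenImmersion (m1 ≫ hV.fromSpec) := by rw [h1]; infer_instance
  have : IsOpenImmersion m1 := IsOpenImmersion.of_comp m1 hV.fromSpec
  refine IsOpenImmersion.isPullback _ _ _ _ (h1.trans h0.symm) ?_
  rw [hU.opensRange_fromSpec]
  ext y
  constructor
  · intro hy
    have hyW : hV.fromSpec y ∈ W := by
      rw [hWeq]; exact ⟨hy, hV.range_fromSpec.le ⟨y, rfl⟩⟩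
    obtain ⟨z, hz⟩ := hW.range_fromSpec.ge hyW
    rw [← h1, Scheme.Hom.comp_apply] at hz
    exact ⟨z, hV.fromSpec.isOpenEmbedding.injective hz⟩
  · rintro ⟨z, rfl⟩
    show hV.fromSpec (m1 z) ∈ U
    rw [← Scheme.Hom.comp_apply, h1]
    exact (hWeq.le.trans inf_le_left) (hW.range_fromSpec.le ⟨z, rfl⟩)

attribute [local instance] Algebra.TensorProduct.rightAlgebra in
/-- Geometric base changes of a smooth affine chart are Dedekind. -/
theorem isDedekindDomain_baseChange [SmoothOfRelativeDimension 1 c] [IsIntegral C]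
    {V : C.Opens} (hV : IsAffineOpen V) [Nonempty V] (B : Type u) [CommRing B] [IsDomain B]
    [Algebra k B] (e : B ≃+* Γ(C, V)) (he : ∀ a, e (algebraMap k B a) = kHom c V a)
    (K : Type u) [Field K] [IsAlgClosed K] [Algebra k K] :
    IsDedekindDomain (K ⊗[k] B) := by
  have : Smooth c := SmoothOfRelativeDimension.smooth 1 c
  have hcomp : algebraMap k B = (e.symm : Γ(C, V) →+* B).comp (kHom c V) :=
    RingHom.ext fun a => e.injective (by simp [he])
  have : Algebra.FiniteType k B := by
    rw [← RingHom.finiteType_algebraMap, hcomp]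
    exact (RingHom.FiniteType.of_surjective _ e.symm.surjective).comp (finiteType_kHom c hV)
  have hL : RingHom.Locally (RingHom.IsStandardSmoothOfRelativeDimension 1) (algebraMap k B) := by
    rw [hcomp]
    exact (RingHom.locally_respectsIso
      RingHom.isStandardSmoothOfRelativeDimension_respectsIso).left _ e.symm (locally_kHom c hV)
  have : IsDomain (K ⊗[k] B) := isDomain_tensor K B
  exact isDedekindDomain_of_smooth
    ((RingHom.locally_isStableUnderBaseChange
      RingHom.isStandardSmoothOfRelativeDimension_respectsIso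
      (RingHom.isStandardSmoothOfRelativeDimension_isStableUnderBaseChange 1))
      k B K (K ⊗[k] B) hL)

end Fermat.Agent.Jac.W1
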